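import Mathlib

/-!
# S16 / (L)-HECKE-HOM, part 0: the abstract transfer-type operator

Let `ι : Γ →* G` be an injective group homomorphism and `rep : X → G` a finite family of elements
of `G` such that

* for every `γ : Γ` and `x : X` there are `y : X` and `γ' : Γ` with `rep x * ι γ = ι γ' * rep y`;
* the cosets `ι Γ * rep x` are pairwise distinct.

Then `y =: sigma γ x` and `γ' =: delta γ x` are unique, `sigma γ` is a permutation of `X`,
`sigma (γ γ') = sigma γ' ∘ sigma γ`, `delta (γ γ') x = delta γ x * delta γ' (sigma γ x)` and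
`(heckeHom φ) γ := ∑ x, φ (delta γ x)` is an endomorphism of `Hom(Γ, A)` for every abelian group `A`,
natural in `A`.  If an involution `J` of `G` stabilises `ι Γ` (inducing `j` on `Γ`) and permutes the
cosets `ι Γ * rep x`, then `heckeHom` commutes with `φ ↦ φ ∘ j`.
-/

set_option autoImplicit false

open scoped BigOperators

namespace Fermat.Agent.S16.HeckeHom13

/-- Hecke coset data: a finite family of "coset representatives" `rep x : G` for a group `Γ`
mapping injectively to `G`. -/
structure CosetData {G Γ : Type*} [Group G] [Group Γ] (ι : Γ →* G) {X : Type*} (rep : X → G) :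
    Prop where
  inj : Function.Injective ι
  exists_mul : ∀ (γ : Γ) (x : X), ∃ (y : X) (γ' : Γ), rep x * ι γ = ι γ' * rep y
  sep : ∀ (x y : X) (γ : Γ), rep x = ι γ * rep y → x = y

namespace CosetData

variable {G Γ : Type*} [Group G] [Group Γ] {ι : Γ →* G} {X : Type*} {rep : X → G}
variable (h : CosetData ι rep)

/-- The coset permutation. -/
noncomputable def sigma (γ : Γ) (x : X) : X := (h.exists_mul γ x).choose

/-- The cocycle `δ γ x ∈ Γ` with `rep x * ι γ = ι (δ γ x) * rep (σ γ x)`. -/
noncomputable def delta (γ : Γ) (x : X) : Γ := (h.exists_mul γ x).choose_spec.choose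

theorem rep_mul (γ : Γ) (x : X) : rep x * ι γ = ι (h.delta γ x) * rep (h.sigma γ x) :=
  (h.exists_mul γ x).choose_spec.choose_spec

include h in
/-- Uniqueness of the decomposition `ι g * rep y`. -/
theorem unique {g g' : Γ} {y y' : X} (he : ι g * rep y = ι g' * rep y') : y = y' ∧ g = g' := by
  have h1 : rep y = ι (g⁻¹ * g') * rep y' := by
    rw [map_mul, map_inv, mul_assoc, ← he, ← mul_assoc, inv_mul_cancel, one_mul]
  have hy : y = y' := h.sep y y' _ h1
  subst hy
  refine ⟨rfl, h.inj ?_⟩
  exact mul_right_cancel he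

theorem sigma_eq {γ g : Γ} {x y : X} (he : rep x * ι γ = ι g * rep y) : h.sigma γ x = y :=
  (h.unique ((h.rep_mul γ x).symm.trans he)).1

theorem delta_eq {γ g : Γ} {x y : X} (he : rep x * ι γ = ι g * rep y) : h.delta γ x = g :=
  (h.unique ((h.rep_mul γ x).symm.trans he)).2

@[simp] theorem sigma_one (x : X) : h.sigma 1 x = x :=
  h.sigma_eq (g := 1) (by simp)

@[simp] theorem delta_one (x : X) : h.delta 1 x = 1 :=
  h.delta_eq (y := x) (by simp)

theorem rep_mul_mul (γ γ' : Γ) (x : X) :
    rep x * ι (γ * γ') =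
      ι (h.delta γ x * h.delta γ' (h.sigma γ x)) * rep (h.sigma γ' (h.sigma γ x)) := by
  rw [map_mul, ← mul_assoc, h.rep_mul γ x, mul_assoc, h.rep_mul γ' (h.sigma γ x), ← mul_assoc,
    map_mul]

theorem sigma_mul (γ γ' : Γ) (x : X) : h.sigma (γ * γ') x = h.sigma γ' (h.sigma γ x) :=
  h.sigma_eq (h.rep_mul_mul γ γ' x)

theorem delta_mul (γ γ' : Γ) (x : X) :
    h.delta (γ * γ') x = h.delta γ x * h.delta γ' (h.sigma γ x) :=
  h.delta_eq (h.rep_mul_mul γ γ' x)

/-- The coset permutation as an equivalence. -/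
noncomputable def sigmaEquiv (γ : Γ) : X ≃ X where
  toFun := h.sigma γ
  invFun := h.sigma γ⁻¹
  left_inv x := by rw [← h.sigma_mul, mul_inv_cancel, h.sigma_one]
  right_inv x := by rw [← h.sigma_mul, inv_mul_cancel, h.sigma_one]

@[simp] theorem sigmaEquiv_apply (γ : Γ) (x : X) : h.sigmaEquiv γ x = h.sigma γ x := rfl

section Hom

variable [Fintype X] {A : Type*} [AddCommGroup A]

/-- The Hecke (transfer-type) operator on `Hom(Γ, A)`: `(T φ) γ = ∑ x, φ (δ γ x)`. -/
noncomputable def heckeHom : (Additive Γ →+ A) →+ (Additive Γ →+ A) where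
  toFun φ :=
    { toFun := fun γ => ∑ x, φ (Additive.ofMul (h.delta (Additive.toMul γ) x))
      map_zero' := by
        show ∑ x, φ (Additive.ofMul (h.delta 1 x)) = 0
        simp
      map_add' := fun γ γ' => by
        show ∑ x, φ (Additive.ofMul (h.delta (Additive.toMul γ * Additive.toMul γ') x)) = _
        simp only [h.delta_mul, ofMul_mul, map_add, Finset.sum_add_distrib]
        congr 1
        exact (h.sigmaEquiv (Additive.toMul γ)).sum_comp
          (fun y => φ (Additive.ofMul (h.delta (Additive.toMul γ') y))) }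
  map_zero' := by
    refine AddMonoidHom.ext fun γ => ?_
    simp
  map_add' φ ψ := by
    refine AddMonoidHom.ext fun γ => ?_
    simp [Finset.sum_add_distrib]

theorem heckeHom_apply (φ : Additive Γ →+ A) (γ : Γ) :
    h.heckeHom φ (Additive.ofMul γ) = ∑ x, φ (Additive.ofMul (h.delta γ x)) := rfl

/-- Naturality in the coefficient group. -/
theorem heckeHom_comp {B : Type*} [AddCommGroup B] (c : A →+ B) (φ : Additive Γ →+ A) :
    h.heckeHom (c.comp φ) = c.comp (h.heckeHom φ) := by
  refine AddMonoidHom.ext fun γ => ?_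
  simp [heckeHom, map_sum]

/-- `heckeHom` commutes with scalars. -/
theorem heckeHom_smul {R : Type*} [Semiring R] [Module R A] (r : R) (φ : Additive Γ →+ A) :
    h.heckeHom (r • φ) = r • h.heckeHom φ := by
  refine AddMonoidHom.ext fun γ => ?_
  simp [heckeHom, Finset.smul_sum]

/-- `heckeHom` as a linear map. -/
noncomputable def heckeHomLin (R : Type*) [Semiring R] [Module R A] :
    (Additive Γ →+ A) →ₗ[R] (Additive Γ →+ A) where
  toFun := h.heckeHom
  map_add' := map_add _
  map_smul' r φ := h.heckeHom_smul r φ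

@[simp] theorem heckeHomLin_apply (R : Type*) [Semiring R] [Module R A] (φ : Additive Γ →+ A) :
    h.heckeHomLin R φ = h.heckeHom φ := rfl

/-- If `φ` depends on `δ γ x` only through a "multiplicative" rule
`φ (δ γ x) = φ γ + c x - c (σ γ x)`, then `heckeHom φ = card X • φ`. -/
theorem heckeHom_eq_card_smul (φ : Additive Γ →+ A) (c : X → A)
    (hφ : ∀ (γ : Γ) (x : X), φ (Additive.ofMul (h.delta γ x)) =
      φ (Additive.ofMul γ) + c x - c (h.sigma γ x)) :
    h.heckeHom φ = Fintype.card X • φ := by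
  refine AddMonoidHom.ext fun γ => ?_
  obtain ⟨γ, rfl⟩ := Additive.ofMul.surjective γ
  rw [h.heckeHom_apply]
  simp only [hφ, AddMonoidHom.coe_smul, Pi.smul_apply]
  have e : ∑ x, c (h.sigma γ x) = ∑ x, c x := (h.sigmaEquiv γ).sum_comp c
  rw [Finset.sum_sub_distrib, Finset.sum_add_distrib, e]
  simp

end Hom

section Involution

variable [Fintype X] {A : Type*} [AddCommGroup A]
variable (J : G →* G) (hJJ : ∀ g, J (J g) = g) (j : Γ →* Γ) (hJι : ∀ γ, J (ι γ) = ι (j γ))
variable (t : X → Γ) (ν : X → X) (hJrep : ∀ x, J (rep x) = ι (t x) * rep (ν x))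

omit [Fintype X] in
include h hJJ hJι hJrep in
theorem nu_nu_and (x : X) : ν (ν x) = x ∧ j (t x) * t (ν x) = 1 := by
  have h1 : ι (j (t x) * t (ν x)) * rep (ν (ν x)) = ι 1 * rep x := by
    have := congrArg J (hJrep x)
    rw [hJJ, map_mul, hJι, hJrep (ν x), ← mul_assoc, ← map_mul] at this
    rw [map_one, one_mul]
    exact this.symm
  exact h.unique h1

omit [Fintype X] in
include hJJ hJι hJrep in
theorem rep_mul_j (γ : Γ) (x : X) :
    rep x * ι (j γ) =
      ι (j (t x) * j (h.delta γ (ν x)) * t (h.sigma γ (ν x))) * rep (ν (h.sigma γ (ν x))) := by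
  have h1 : J (rep x) * ι γ = ι (t x * h.delta γ (ν x)) * rep (h.sigma γ (ν x)) := by
    rw [hJrep x, mul_assoc, h.rep_mul γ (ν x), ← mul_assoc, ← map_mul]
  have h2 := congrArg J h1
  rw [map_mul, hJJ, hJι, map_mul, hJι, hJrep, ← mul_assoc, ← map_mul] at h2
  rw [h2, map_mul j]

include hJJ hJι hJrep in
/-- `heckeHom` commutes with precomposition by the involution `j`. -/
theorem heckeHom_comp_invol (φ : Additive Γ →+ A) :
    h.heckeHom (φ.comp (MonoidHom.toAdditive j)) = (h.heckeHom φ).comp (MonoidHom.toAdditive j) := by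
  have hνν : ∀ x, ν (ν x) = x := fun x => (h.nu_nu_and J hJJ j hJι t ν hJrep x).1
  let νE : X ≃ X := ⟨ν, ν, hνν, hνν⟩
  refine AddMonoidHom.ext fun γ => ?_
  obtain ⟨γ, rfl⟩ := Additive.ofMul.surjective γ
  show h.heckeHom (φ.comp (MonoidHom.toAdditive j)) (Additive.ofMul γ) =
    h.heckeHom φ (Additive.ofMul (j γ))
  rw [h.heckeHom_apply, h.heckeHom_apply]
  have hδ : ∀ x, h.delta (j γ) x =
      j (t x) * j (h.delta γ (ν x)) * t (h.sigma γ (ν x)) :=
    fun x => h.delta_eq (h.rep_mul_j J hJJ j hJι t ν hJrep γ x)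
  simp only [hδ, ofMul_mul, map_add, Finset.sum_add_distrib]
  have e1 : ∑ x, φ (Additive.ofMul (j (h.delta γ (ν x)))) =
      ∑ x, φ (Additive.ofMul (j (h.delta γ x))) :=
    νE.sum_comp (fun y => φ (Additive.ofMul (j (h.delta γ y))))
  have e2 : ∑ x, φ (Additive.ofMul (t (h.sigma γ (ν x)))) = ∑ x, φ (Additive.ofMul (t x)) :=
    (νE.trans (h.sigmaEquiv γ)).sum_comp (fun y => φ (Additive.ofMul (t y)))
  have e3 : ∑ x, φ (Additive.ofMul (j (t x))) = - ∑ x, φ (Additive.ofMul (t x)) := by
    rw [← Finset.sum_neg_distrib, ← νE.sum_comp (fun y => -φ (Additive.ofMul (t y)))]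
    refine Finset.sum_congr rfl fun x _ => ?_
    have := (h.nu_nu_and J hJJ j hJι t ν hJrep x).2
    have h3 : φ (Additive.ofMul (j (t x) * t (ν x))) = 0 := by rw [this]; simp
    rw [ofMul_mul, map_add] at h3
    exact eq_neg_of_add_eq_zero_left h3
  rw [e1, e2, e3]
  simp only [AddMonoidHom.coe_comp, Function.comp_apply, MonoidHom.toAdditive_apply_apply,
    toMul_ofMul]
  abel

end Involution

end CosetData

end Fermat.Agent.S16.HeckeHom13
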