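import Mathlib
import Fermat.Agent.S16.HeckeHom13.Abstract
import Fermat.Agent.S22.HeckeStable
import Fermat.Prelude.Def_ModularCurve_PeriodHomPair

/-!
# S16 / (L)-HECKE-HOM, part 1: the coset data of `T_p` and `U_p` for `Γ₀(N)`

`cosetDataT` (`p ∤ N`, representatives `heckeRep p x`, `x : OnePoint (ZMod p)`) and `cosetDataU`
(`p ∣ N`, representatives `heckeMatrix p x.val`, `x : ZMod p`), with
`Γ = Γ₀(N) → GL (Fin 2) ℝ`.  The resulting operators `heckeHomT`, `heckeHomU` on
`Additive (Gamma0 N) →+ A`, the integer-matrix form of the defining relation, the lower-right entry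
congruence, and commutation with `charInvolution`.
-/

set_option autoImplicit false

open Matrix Matrix.SpecialLinearGroup CongruenceSubgroup
open scoped MatrixGroups
open P2MW.S_ModularForm_heckeT_slash_eq_self_of_mem_Gamma0.ModularForm.HeckeSlashInvariance
open Fermat.Agent.S22.HeckeStable
open ModularCurve.Period

namespace Fermat.Agent.S16.HeckeHom13

variable (N : ℕ)

/-- The inclusion `Γ₀(N) → GL (Fin 2) ℝ`. -/
noncomputable def iotaGL : Gamma0 N →* GL (Fin 2) ℝ := (mapGL ℝ).comp (Gamma0 N).subtype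

@[simp] theorem iotaGL_apply (γ : Gamma0 N) : iotaGL N γ = mapGL ℝ (γ : SL(2, ℤ)) := rfl

theorem iotaGL_injective : Function.Injective (iotaGL N) :=
  (mapGL_injective (R := ℤ) (S := ℝ) (n := Fin 2)).comp (Subgroup.subtype_injective _)

theorem mem_Gamma0_iff_dvd {g : SL(2, ℤ)} : g ∈ Gamma0 N ↔ (N : ℤ) ∣ g 1 0 := by
  rw [Gamma0_mem, ZMod.intCast_zmod_eq_zero_iff_dvd]

/-- Integer form of an identity `heckeRep x * mapGL g = mapGL g' * heckeRep y`. -/
theorem heckeRepZ_mul_of_real {p : ℕ} (hp : p ≠ 0) {g g' : SL(2, ℤ)} {x y : OnePoint (ZMod p)}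
    (h : heckeRep p x * mapGL ℝ g = mapGL ℝ g' * heckeRep p y) :
    heckeRepZ p x * (g : Matrix (Fin 2) (Fin 2) ℤ) =
      (g' : Matrix (Fin 2) (Fin 2) ℤ) * heckeRepZ p y := by
  apply int_matrix_eq_of_real
  have := congrArg (fun M : GL (Fin 2) ℝ => (M : Matrix (Fin 2) (Fin 2) ℝ)) h
  simp only [Units.val_mul] at this
  rw [heckeRep_val_eq p hp, heckeRep_val_eq p hp, mapGL_val_eq, mapGL_val_eq] at this
  exact this

/-- The cosets `SL(2, ℤ) * heckeRep p x` are pairwise distinct (`2 ≤ p`). -/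
theorem heckeRepZ_sep {p : ℕ} (hp : 2 ≤ p) {g : SL(2, ℤ)} {x y : OnePoint (ZMod p)}
    (h : heckeRepZ p x = (g : Matrix (Fin 2) (Fin 2) ℤ) * heckeRepZ p y) : x = y := by
  have hp0 : p ≠ 0 := by omega
  have : NeZero p := ⟨hp0⟩
  have hdet := g.det_coe
  rw [Matrix.det_fin_two] at hdet
  induction x using OnePoint.rec with
  | infty =>
    induction y using OnePoint.rec with
    | infty => rfl
    | coe j' =>
      exfalso
      rw [heckeRepZ_infty, heckeRepZ_coe] at h
      have h00 := congrFun (congrFun h 0) 0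
      have h10 := congrFun (congrFun h 1) 0
      simp [Matrix.mul_apply, Fin.sum_univ_two] at h00 h10
      rw [← h00, ← h10, mul_zero, sub_zero] at hdet
      have : (p : ℤ) ∣ 1 := ⟨g 1 1, hdet.symm⟩
      have := Int.le_of_dvd one_pos this
      omega
  | coe j =>
    induction y using OnePoint.rec with
    | infty =>
      exfalso
      rw [heckeRepZ_infty, heckeRepZ_coe] at h
      have h00 := congrFun (congrFun h 0) 0
      simp [Matrix.mul_apply, Fin.sum_univ_two] at h00
      have : (p : ℤ) ∣ 1 := ⟨g 0 0, by linarith⟩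
      have := Int.le_of_dvd one_pos this
      omega
    | coe j' =>
      rw [heckeRepZ_coe, heckeRepZ_coe] at h
      have h00 := congrFun (congrFun h 0) 0
      have h01 := congrFun (congrFun h 0) 1
      simp [Matrix.mul_apply, Fin.sum_univ_two] at h00 h01
      rw [← h00] at h01
      have hjj : (j : ZMod p) = j' := by
        have := congrArg (Int.cast : ℤ → ZMod p) h01
        push_cast at this
        simpa using this
      rw [hjj]

theorem heckeRep_sep {p : ℕ} (hp : 2 ≤ p) {g : SL(2, ℤ)} {x y : OnePoint (ZMod p)}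
    (h : heckeRep p x = mapGL ℝ g * heckeRep p y) : x = y := by
  have hp0 : p ≠ 0 := by omega
  have h1 : heckeRep p x * mapGL ℝ (1 : SL(2, ℤ)) = mapGL ℝ g * heckeRep p y := by
    rw [map_one, mul_one, h]
  have h2 := heckeRepZ_mul_of_real hp0 h1
  have h3 : ((1 : SL(2, ℤ)) : Matrix (Fin 2) (Fin 2) ℤ) = 1 := rfl
  rw [h3, mul_one] at h2
  exact heckeRepZ_sep hp h2

section T

variable {N} {p : ℕ} [Fact p.Prime]

/-- Coset data for `T_p`, `p ∤ N`. -/
theorem cosetDataT (hpN : ¬ p ∣ N) :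
    CosetData (iotaGL N) (fun x : OnePoint (ZMod p) => heckeRep p x) where
  inj := iotaGL_injective N
  exists_mul γ x := by
    obtain ⟨g', hg', hmul⟩ := heckeRep_mul hpN (γ : SL(2, ℤ)) ((mem_Gamma0_iff_dvd N).mp γ.2) x
    exact ⟨_, ⟨g', (mem_Gamma0_iff_dvd N).mpr hg'⟩, hmul⟩
  sep x y γ h := heckeRep_sep (Fact.out : p.Prime).two_le h

end T

section U

variable {N} {p : ℕ} [Fact p.Prime]

/-- Coset data for `U_p`, `p ∣ N`. -/
theorem cosetDataU (hpN : p ∣ N) :
    CosetData (iotaGL N) (fun x : ZMod p => heckeRep p (x : OnePoint (ZMod p))) where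
  inj := iotaGL_injective N
  exists_mul γ x := by
    have hN : (N : ℤ) ∣ (γ : SL(2, ℤ)) 1 0 := (mem_Gamma0_iff_dvd N).mp γ.2
    have hc : (p : ℤ) ∣ (γ : SL(2, ℤ)) 1 0 := (Int.natCast_dvd_natCast.mpr hpN).trans hN
    obtain ⟨g', hg', hmul⟩ := heckeMatrix_mul_of_dvd (γ : SL(2, ℤ)) hc x
    refine ⟨_, ⟨g', (mem_Gamma0_iff_dvd N).mpr ?_⟩, hmul⟩
    rw [hg']
    exact Dvd.dvd.mul_left hN _
  sep x y γ h := by
    have := heckeRep_sep (Fact.out : p.Prime).two_le h
    exact OnePoint.coe_injective this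

end U

end Fermat.Agent.S16.HeckeHom13
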