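import Mathlib
import Fermat.Agent.S16.HeckeHom13.Gamma0

/-!
# S16 / (L)-HECKE-HOM, part 2: `heckeHomT`, `heckeHomU` on `Hom(Γ₀(N), A)`

Definitions, the integer-matrix form of the defining relation, uniqueness, the lower-right entry
congruences and the resulting "Eisenstein" eigenvalue for homomorphisms that only depend on the
lower-right entry modulo `N`.
-/

set_option autoImplicit false

open Matrix Matrix.SpecialLinearGroup CongruenceSubgroup
open scoped MatrixGroups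
open P2MW.S_ModularForm_heckeT_slash_eq_self_of_mem_Gamma0.ModularForm.HeckeSlashInvariance
open Fermat.Agent.S22.HeckeStable
open ModularCurve.Period

namespace Fermat.Agent.S16.HeckeHom13

variable {N : ℕ} {p : ℕ}

/-- Real form of an integer identity `heckeRepZ x * g = g' * heckeRepZ y`. -/
theorem heckeRep_mul_of_int (hp : p ≠ 0) {g g' : SL(2, ℤ)} {x y : OnePoint (ZMod p)}
    (h : heckeRepZ p x * (g : Matrix (Fin 2) (Fin 2) ℤ) =
      (g' : Matrix (Fin 2) (Fin 2) ℤ) * heckeRepZ p y) :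
    heckeRep p x * mapGL ℝ g = mapGL ℝ g' * heckeRep p y := by
  apply Units.ext
  simp only [Units.val_mul]
  rw [heckeRep_val_eq p hp, heckeRep_val_eq p hp, mapGL_val_eq, mapGL_val_eq]
  have := congrArg (fun M : Matrix (Fin 2) (Fin 2) ℤ => M.map (Int.castRingHom ℝ)) h
  simp only [Matrix.map_mul] at this
  exact this

/-! ### `T_p`, `p ∤ N` -/

section T

variable [hp : Fact p.Prime] (hpN : ¬ p ∣ N)

/-- The coset permutation of `T_p`. -/
noncomputable def sigmaT (γ : Gamma0 N) (x : OnePoint (ZMod p)) : OnePoint (ZMod p) :=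
  (cosetDataT hpN).sigma γ x

/-- The cocycle of `T_p`. -/
noncomputable def deltaT (γ : Gamma0 N) (x : OnePoint (ZMod p)) : Gamma0 N :=
  (cosetDataT hpN).delta γ x

/-- The Hecke operator `T_p` on `Hom(Γ₀(N), A)`. -/
noncomputable def heckeHomT (A : Type*) [AddCommGroup A] :
    (Additive (Gamma0 N) →+ A) →+ (Additive (Gamma0 N) →+ A) :=
  (cosetDataT hpN).heckeHom

variable {A : Type*} [AddCommGroup A]

theorem heckeHomT_apply (φ : Additive (Gamma0 N) →+ A) (γ : Gamma0 N) :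
    heckeHomT hpN A φ (Additive.ofMul γ) =
      ∑ x : OnePoint (ZMod p), φ (Additive.ofMul (deltaT hpN γ x)) := rfl

theorem heckeRep_mul_deltaT (γ : Gamma0 N) (x : OnePoint (ZMod p)) :
    heckeRep p x * mapGL ℝ (γ : SL(2, ℤ)) =
      mapGL ℝ ((deltaT hpN γ x : Gamma0 N) : SL(2, ℤ)) * heckeRep p (sigmaT hpN γ x) :=
  (cosetDataT hpN).rep_mul γ x

theorem heckeRepZ_mul_deltaT (γ : Gamma0 N) (x : OnePoint (ZMod p)) :
    heckeRepZ p x * ((γ : SL(2, ℤ)) : Matrix (Fin 2) (Fin 2) ℤ) =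
      (((deltaT hpN γ x : Gamma0 N) : SL(2, ℤ)) : Matrix (Fin 2) (Fin 2) ℤ) *
        heckeRepZ p (sigmaT hpN γ x) :=
  heckeRepZ_mul_of_real hp.out.ne_zero (heckeRep_mul_deltaT hpN γ x)

/-- Uniqueness: any integer relation `heckeRepZ x * γ = g * heckeRepZ y` with `g ∈ Γ₀(N)` computes
`sigmaT` and `deltaT`. -/
theorem sigmaT_deltaT_eq {γ g : Gamma0 N} {x y : OnePoint (ZMod p)}
    (h : heckeRepZ p x * ((γ : SL(2, ℤ)) : Matrix (Fin 2) (Fin 2) ℤ) =
      ((g : SL(2, ℤ)) : Matrix (Fin 2) (Fin 2) ℤ) * heckeRepZ p y) :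
    sigmaT hpN γ x = y ∧ deltaT hpN γ x = g := by
  have h' := heckeRep_mul_of_int hp.out.ne_zero h
  exact ⟨(cosetDataT hpN).sigma_eq (g := g) h', (cosetDataT hpN).delta_eq (y := y) h'⟩

theorem sigmaT_bijective (γ : Gamma0 N) : Function.Bijective (sigmaT hpN γ) :=
  ((cosetDataT hpN).sigmaEquiv γ).bijective

/-- The coset permutation of `T_p` as an equivalence. -/
noncomputable def sigmaTEquiv (γ : Gamma0 N) : OnePoint (ZMod p) ≃ OnePoint (ZMod p) :=
  Equiv.ofBijective _ (sigmaT_bijective hpN γ)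

@[simp] theorem sigmaTEquiv_apply (γ : Gamma0 N) (x : OnePoint (ZMod p)) :
    sigmaTEquiv hpN γ x = sigmaT hpN γ x := rfl

theorem sigmaT_mul (γ γ' : Gamma0 N) (x : OnePoint (ZMod p)) :
    sigmaT hpN (γ * γ') x = sigmaT hpN γ' (sigmaT hpN γ x) :=
  (cosetDataT hpN).sigma_mul γ γ' x

theorem deltaT_mul (γ γ' : Gamma0 N) (x : OnePoint (ZMod p)) :
    deltaT hpN (γ * γ') x = deltaT hpN γ x * deltaT hpN γ' (sigmaT hpN γ x) :=
  (cosetDataT hpN).delta_mul γ γ' x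

/-- Naturality of `heckeHomT` in the coefficient group. -/
theorem heckeHomT_comp {B : Type*} [AddCommGroup B] (c : A →+ B)
    (φ : Additive (Gamma0 N) →+ A) :
    heckeHomT hpN B (c.comp φ) = c.comp (heckeHomT hpN A φ) :=
  (cosetDataT hpN).heckeHom_comp c φ

theorem heckeHomT_smul {R : Type*} [Semiring R] [Module R A] (r : R)
    (φ : Additive (Gamma0 N) →+ A) :
    heckeHomT hpN A (r • φ) = r • heckeHomT hpN A φ :=
  (cosetDataT hpN).heckeHom_smul r φ

/-- **Lower-right entry congruence for `T_p`**: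
`d(rep x) * d(γ) = d(δ γ x) * d(rep (σ γ x))` in `ZMod N`. -/
theorem lowerRight_deltaT (γ : Gamma0 N) (x : OnePoint (ZMod p)) :
    ((heckeRepZ p x 1 1 : ℤ) : ZMod N) * (((γ : SL(2, ℤ)) 1 1 : ℤ) : ZMod N) =
      ((((deltaT hpN γ x : Gamma0 N) : SL(2, ℤ)) 1 1 : ℤ) : ZMod N) *
        ((heckeRepZ p (sigmaT hpN γ x) 1 1 : ℤ) : ZMod N) := by
  have h := heckeRepZ_mul_deltaT hpN γ x
  have h11 := congrFun (congrFun h 1) 1
  simp only [Matrix.mul_apply, Fin.sum_univ_two, heckeRepZ_one_zero, zero_mul, zero_add] at h11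
  have hδ : ((((deltaT hpN γ x : Gamma0 N) : SL(2, ℤ)) 1 0 : ℤ) : ZMod N) = 0 :=
    Gamma0_mem.mp (deltaT hpN γ x).2
  have := congrArg (Int.cast : ℤ → ZMod N) h11
  push_cast at this
  rw [this, hδ, zero_mul, zero_add]

end T

/-! ### `U_p`, `p ∣ N` -/

section U

variable [hp : Fact p.Prime] (hpN : p ∣ N)

/-- The coset permutation of `U_p`. -/
noncomputable def sigmaU (γ : Gamma0 N) (x : ZMod p) : ZMod p :=
  (cosetDataU hpN).sigma γ x

/-- The cocycle of `U_p`. -/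
noncomputable def deltaU (γ : Gamma0 N) (x : ZMod p) : Gamma0 N :=
  (cosetDataU hpN).delta γ x

/-- The Hecke operator `U_p` on `Hom(Γ₀(N), A)`. -/
noncomputable def heckeHomU (A : Type*) [AddCommGroup A] :
    (Additive (Gamma0 N) →+ A) →+ (Additive (Gamma0 N) →+ A) :=
  (cosetDataU hpN).heckeHom

variable {A : Type*} [AddCommGroup A]

theorem heckeHomU_apply (φ : Additive (Gamma0 N) →+ A) (γ : Gamma0 N) :
      heckeHomU hpN A φ (Additive.ofMul γ) =
      ∑ x : ZMod p, φ (Additive.ofMul (deltaU hpN γ x)) := rfl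

theorem heckeRep_mul_deltaU (γ : Gamma0 N) (x : ZMod p) :
    heckeRep p (x : OnePoint (ZMod p)) * mapGL ℝ (γ : SL(2, ℤ)) =
      mapGL ℝ ((deltaU hpN γ x : Gamma0 N) : SL(2, ℤ)) *
        heckeRep p ((sigmaU hpN γ x : ZMod p) : OnePoint (ZMod p)) :=
  (cosetDataU hpN).rep_mul γ x

theorem heckeRepZ_mul_deltaU (γ : Gamma0 N) (x : ZMod p) :
    heckeRepZ p (x : OnePoint (ZMod p)) * ((γ : SL(2, ℤ)) : Matrix (Fin 2) (Fin 2) ℤ) =
      (((deltaU hpN γ x : Gamma0 N) : SL(2, ℤ)) : Matrix (Fin 2) (Fin 2) ℤ) *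
        heckeRepZ p ((sigmaU hpN γ x : ZMod p) : OnePoint (ZMod p)) :=
  heckeRepZ_mul_of_real hp.out.ne_zero (heckeRep_mul_deltaU hpN γ x)

theorem sigmaU_deltaU_eq {γ g : Gamma0 N} {x y : ZMod p}
    (h : heckeRepZ p (x : OnePoint (ZMod p)) * ((γ : SL(2, ℤ)) : Matrix (Fin 2) (Fin 2) ℤ) =
      ((g : SL(2, ℤ)) : Matrix (Fin 2) (Fin 2) ℤ) * heckeRepZ p (y : OnePoint (ZMod p))) :
    sigmaU hpN γ x = y ∧ deltaU hpN γ x = g := by
  have h' := heckeRep_mul_of_int hp.out.ne_zero h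
  exact ⟨(cosetDataU hpN).sigma_eq (g := g) h', (cosetDataU hpN).delta_eq (y := y) h'⟩

theorem sigmaU_bijective (γ : Gamma0 N) : Function.Bijective (sigmaU hpN γ) :=
  ((cosetDataU hpN).sigmaEquiv γ).bijective

/-- The coset permutation of `U_p` as an equivalence. -/
noncomputable def sigmaUEquiv (γ : Gamma0 N) : ZMod p ≃ ZMod p :=
  Equiv.ofBijective _ (sigmaU_bijective hpN γ)

@[simp] theorem sigmaUEquiv_apply (γ : Gamma0 N) (x : ZMod p) :
    sigmaUEquiv hpN γ x = sigmaU hpN γ x := rfl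

theorem sigmaU_mul (γ γ' : Gamma0 N) (x : ZMod p) :
    sigmaU hpN (γ * γ') x = sigmaU hpN γ' (sigmaU hpN γ x) :=
  (cosetDataU hpN).sigma_mul γ γ' x

theorem deltaU_mul (γ γ' : Gamma0 N) (x : ZMod p) :
    deltaU hpN (γ * γ') x = deltaU hpN γ x * deltaU hpN γ' (sigmaU hpN γ x) :=
  (cosetDataU hpN).delta_mul γ γ' x

theorem heckeHomU_comp {B : Type*} [AddCommGroup B] (c : A →+ B)
    (φ : Additive (Gamma0 N) →+ A) :
    heckeHomU hpN B (c.comp φ) = c.comp (heckeHomU hpN A φ) :=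
  (cosetDataU hpN).heckeHom_comp c φ

theorem heckeHomU_smul {R : Type*} [Semiring R] [Module R A] (r : R)
    (φ : Additive (Gamma0 N) →+ A) :
    heckeHomU hpN A (r • φ) = r • heckeHomU hpN A φ :=
  (cosetDataU hpN).heckeHom_smul r φ

/-- **Lower-right entry congruence for `U_p`**: `d(δ γ x) = d(γ)` in `ZMod N`. -/
theorem lowerRight_deltaU (γ : Gamma0 N) (x : ZMod p) :
    ((((deltaU hpN γ x : Gamma0 N) : SL(2, ℤ)) 1 1 : ℤ) : ZMod N) =
      (((γ : SL(2, ℤ)) 1 1 : ℤ) : ZMod N) := by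
  have h := heckeRepZ_mul_deltaU hpN γ x
  have h10 := congrFun (congrFun h 1) 0
  have h11 := congrFun (congrFun h 1) 1
  simp only [Matrix.mul_apply, Fin.sum_univ_two, heckeRepZ_coe] at h10 h11
  simp at h10 h11
  -- h10 : p * γ10 = δ10 ;  h11 : p * γ11 = δ10 * y + δ11 * p
  have hp0 : (p : ℤ) ≠ 0 := by exact_mod_cast hp.out.ne_zero
  have hγ : (((γ : SL(2, ℤ)) 1 0 : ℤ) : ZMod N) = 0 := Gamma0_mem.mp γ.2
  obtain ⟨k, key⟩ : ∃ k : ℤ, ((γ : SL(2, ℤ)) 1 1 : ℤ) =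
      (γ : SL(2, ℤ)) 1 0 * k + ((deltaU hpN γ x : Gamma0 N) : SL(2, ℤ)) 1 1 := by
    refine ⟨(sigmaU hpN γ x).cast, ?_⟩
    apply mul_left_cancel₀ hp0
    rw [h11, ← h10]
    ring
  have := congrArg (Int.cast : ℤ → ZMod N) key
  push_cast at this
  rw [this, hγ, zero_mul, zero_add]

end U

end Fermat.Agent.S16.HeckeHom13
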