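import Mathlib
import Fermat.Agent.S16.HeckeHom13.Ops

/-!
# S16 / (L)-HECKE-HOM, part 3: homomorphisms depending only on the lower-right entry mod `N`

For `χ : Additive (ZMod N)ˣ →+ A` the homomorphism `lowerRightHom χ : Γ₀(N) → A`,
`γ ↦ χ (γ 1 1 mod N)`, satisfies `T_p (lowerRightHom χ) = (p + 1) • lowerRightHom χ` (`p ∤ N`) and
`U_p (lowerRightHom χ) = p • lowerRightHom χ` (`p ∣ N`).
-/

set_option autoImplicit false

open Matrix Matrix.SpecialLinearGroup CongruenceSubgroup
open scoped MatrixGroups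
open P2MW.S_ModularForm_heckeT_slash_eq_self_of_mem_Gamma0.ModularForm.HeckeSlashInvariance
open Fermat.Agent.S22.HeckeStable

namespace Fermat.Agent.S16.HeckeHom13

variable {N : ℕ} {p : ℕ} {A : Type*} [AddCommGroup A]

/-- The lower-right entry of `γ ∈ Γ₀(N)` as a unit of `ZMod N`. -/
noncomputable def lowerRightUnit (N : ℕ) : Gamma0 N →* (ZMod N)ˣ := (Gamma0Map N).toHomUnits

@[simp] theorem coe_lowerRightUnit (γ : Gamma0 N) :
    ((lowerRightUnit N γ : (ZMod N)ˣ) : ZMod N) = (((γ : SL(2, ℤ)) 1 1 : ℤ) : ZMod N) := rfl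

/-- The homomorphism `γ ↦ χ (γ 1 1 mod N)`. -/
noncomputable def lowerRightHom (χ : Additive (ZMod N)ˣ →+ A) : Additive (Gamma0 N) →+ A :=
  χ.comp (MonoidHom.toAdditive (lowerRightUnit N))

@[simp] theorem lowerRightHom_apply (χ : Additive (ZMod N)ˣ →+ A) (γ : Gamma0 N) :
    lowerRightHom χ (Additive.ofMul γ) = χ (Additive.ofMul (lowerRightUnit N γ)) := rfl

section T

variable [hp : Fact p.Prime] (hpN : ¬ p ∣ N)

/-- The lower-right entry of `heckeRepZ p x` as a unit of `ZMod N` (`p ∤ N`). -/
noncomputable def repUnit (x : OnePoint (ZMod p)) : (ZMod N)ˣ :=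
  x.elim 1 (fun _ => ZMod.unitOfCoprime p ((Nat.Prime.coprime_iff_not_dvd hp.out).mpr hpN))

theorem coe_repUnit (x : OnePoint (ZMod p)) :
    ((repUnit hpN x : (ZMod N)ˣ) : ZMod N) = ((heckeRepZ p x 1 1 : ℤ) : ZMod N) := by
  induction x using OnePoint.rec with
  | infty => simp [repUnit, heckeRepZ_infty]
  | coe j => simp [repUnit, heckeRepZ_coe]

theorem repUnit_mul (γ : Gamma0 N) (x : OnePoint (ZMod p)) :
    repUnit hpN x * lowerRightUnit N γ =
      lowerRightUnit N (deltaT hpN γ x) * repUnit hpN (sigmaT hpN γ x) := by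
  apply Units.ext
  rw [Units.val_mul, Units.val_mul, coe_repUnit, coe_repUnit, coe_lowerRightUnit,
    coe_lowerRightUnit]
  exact lowerRight_deltaT hpN γ x

/-- **Eisenstein eigenvalue for `T_p`** on homomorphisms depending only on `γ 1 1 mod N`. -/
theorem heckeHomT_lowerRightHom (χ : Additive (ZMod N)ˣ →+ A) :
    heckeHomT hpN A (lowerRightHom χ) = (p + 1) • lowerRightHom χ := by
  have h := (cosetDataT hpN).heckeHom_eq_card_smul (lowerRightHom χ)
    (fun x => χ (Additive.ofMul (repUnit hpN x))) (fun γ x => by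
      have h1 := congrArg (fun u => χ (Additive.ofMul u)) (repUnit_mul hpN γ x)
      simp only [ofMul_mul, map_add] at h1
      show lowerRightHom χ (Additive.ofMul (deltaT hpN γ x)) = _
      rw [lowerRightHom_apply, lowerRightHom_apply]
      have h2 : sigmaT hpN γ x = (cosetDataT hpN).sigma γ x := rfl
      rw [← h2]
      rw [eq_sub_iff_add_eq, ← h1]
      abel)
  have hcard : Fintype.card (OnePoint (ZMod p)) = p + 1 := by
    rw [show Fintype.card (OnePoint (ZMod p)) = Fintype.card (Option (ZMod p)) from rfl,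
      Fintype.card_option, ZMod.card]
  rw [← hcard]
  exact h

end T

section U

variable [hp : Fact p.Prime] (hpN : p ∣ N)

/-- **Eisenstein eigenvalue for `U_p`** on homomorphisms depending only on `γ 1 1 mod N`. -/
theorem heckeHomU_lowerRightHom (χ : Additive (ZMod N)ˣ →+ A) :
    heckeHomU hpN A (lowerRightHom χ) = p • lowerRightHom χ := by
  have h := (cosetDataU hpN).heckeHom_eq_card_smul (lowerRightHom χ) (fun _ => 0) (fun γ x => by
      show lowerRightHom χ (Additive.ofMul (deltaU hpN γ x)) = _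
      rw [lowerRightHom_apply, lowerRightHom_apply, sub_zero, add_zero]
      congr 2
      apply Units.ext
      rw [coe_lowerRightUnit, coe_lowerRightUnit]
      exact lowerRight_deltaU hpN γ x)
  have hcard : Fintype.card (ZMod p) = p := ZMod.card p
  rw [hcard] at h
  exact h

end U

end Fermat.Agent.S16.HeckeHom13
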